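import Mathlib

/-!
# WALL A2 / MODASM — S2 (components normal), abstract core (helper994)

Mathlib only.  `K ⊆ L` fields with valuation subrings `VM`, `V`, an `R`-algebra map `φ : K → L`
(`α` or `β`), coordinates `yM ∈ K`, `y ∈ L` with `y ≡ φ(yM)^e` modulo the maximal ideal of `V`,
`B` = integral closure of `R[y]` in `L`, `p = B ∩ 𝔪_V`.

`isIntegrallyClosed_quotient_of_residue`: if every element of `V` is congruent to some `φ g`,
`g ∈ VM` (residue degree one), and the level-`K` chart is normal modulo `𝔪_VM` (elementwise), then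
`B ⧸ p` is integrally closed.

NOTE: `B` is in general NOT integral over `φ(B_K)` (chart at infinity), only modulo `p`; this is
why the statement is phrased through the residue field of `V`.
-/

set_option autoImplicit false
set_option linter.style.haveILetI false
set_option linter.unusedSectionVars false

namespace Fermat.Agent.A2.Mod.H994

open Polynomial

section Abs

variable {R K L : Type*} [CommRing R] [Field K] [Field L] [Algebra R K] [Algebra R L]

/-- An element integral over `R[y]` lies in every valuation subring containing `R` and `y`. -/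
theorem mem_valuationSubring_of_isIntegral_adjoin (V : ValuationSubring L)
    (hRV : ∀ r : R, algebraMap R L r ∈ V) {y : L} (hy : y ∈ V) {b : L}
    (hb : IsIntegral (Algebra.adjoin R ({y} : Set L)) b) : b ∈ V := by
  obtain ⟨p, hp, hpb⟩ := hb
  let V' : Subalgebra R L :=
    { V.toSubring with
      algebraMap_mem' := hRV }
  have hle : Algebra.adjoin R ({y} : Set L) ≤ V' :=
    Algebra.adjoin_le (by
      intro z hz
      rw [Set.mem_singleton_iff] at hz
      subst hz
      exact hy)
  let j : ↥(Algebra.adjoin R ({y} : Set L)) →+* ↥V :=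
    { toFun := fun a => ⟨a.1, hle a.2⟩
      map_one' := rfl
      map_mul' := fun _ _ => rfl
      map_zero' := rfl
      map_add' := fun _ _ => rfl }
  have hint : IsIntegral V b := by
    refine ⟨p.map j, hp.map j, ?_⟩
    rw [Polynomial.eval₂_map]
    exact hpb
  obtain ⟨v, hv⟩ := (IsIntegrallyClosed.isIntegral_iff (R := V) (K := L)).mp hint
  rw [← hv]
  exact v.2

/-- Integrality over `R[y]` in polynomial form. -/
theorem exists_monic_eval₂_aeval_of_isIntegral_adjoin {y b : L}
    (hb : IsIntegral (Algebra.adjoin R ({y} : Set L)) b) :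
    ∃ p : Polynomial (Polynomial R), p.Monic ∧
      p.eval₂ (Polynomial.aeval (R := R) y).toRingHom b = 0 := by
  obtain ⟨p, hp, hpb⟩ := hb
  set ψ : Polynomial R →ₐ[R] L := Polynomial.aeval (R := R) y with hψ
  have hrange : Algebra.adjoin R ({y} : Set L) = ψ.range :=
    Algebra.adjoin_singleton_eq_range_aeval R y
  have hsurj : ∀ a : ↥(Algebra.adjoin R ({y} : Set L)), ∃ c : Polynomial R, ψ c = a.1 := by
    intro a
    have h1 : a.1 ∈ ψ.range := hrange ▸ a.2
    exact h1
  choose c hc using hsurj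
  -- lift the coefficients
  let q : Polynomial (Polynomial R) :=
    Polynomial.X ^ p.natDegree + ∑ i ∈ Finset.range p.natDegree, Polynomial.C (c (p.coeff i)) *
      Polynomial.X ^ i
  have hdeg : (∑ i ∈ Finset.range p.natDegree, Polynomial.C (c (p.coeff i)) *
      (Polynomial.X : Polynomial (Polynomial R)) ^ i).degree < (p.natDegree : WithBot ℕ) := by
    refine lt_of_le_of_lt (Polynomial.degree_sum_le _ _) ?_
    rw [Finset.sup_lt_iff (WithBot.bot_lt_coe _)]
    intro i hi
    refine lt_of_le_of_lt (Polynomial.degree_C_mul_X_pow_le _ _) ?_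
    exact_mod_cast Finset.mem_range.1 hi
  have hq : q.Monic := Polynomial.monic_X_pow_add hdeg
  refine ⟨q, hq, ?_⟩
  have hp' := hp.as_sum
  have hpb' : Polynomial.eval₂ (algebraMap (↥(Algebra.adjoin R ({y} : Set L))) L) b p = 0 := hpb
  rw [hp'] at hpb'
  simp only [q, Polynomial.eval₂_add, Polynomial.eval₂_pow, Polynomial.eval₂_X,
    Polynomial.eval₂_finsetSum, Polynomial.eval₂_mul, Polynomial.eval₂_C] at hpb' ⊢
  rw [← hpb']
  congr 1
  refine Finset.sum_congr rfl fun i _ => ?_
  congr 1
  exact hc _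

/-- Transitivity: `z` integral over `R[y]` and `b` a root of a monic polynomial with coefficients
in `R[z]` ⟹ `b` integral over `R[y]`. -/
theorem isIntegral_adjoin_of_eval₂ {y z b : L}
    (hz : IsIntegral (Algebra.adjoin R ({y} : Set L)) z)
    (p : Polynomial (Polynomial R)) (hp : p.Monic)
    (hpb : p.eval₂ (Polynomial.aeval (R := R) z).toRingHom b = 0) :
    IsIntegral (Algebra.adjoin R ({y} : Set L)) b := by
  let A := integralClosure (Algebra.adjoin R ({y} : Set L)) L
  have hmem : ∀ a : Polynomial R, Polynomial.aeval (R := R) z a ∈ A := by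
    intro a
    have hle : Algebra.adjoin R ({z} : Set L) ≤ A.restrictScalars R :=
      Algebra.adjoin_le (by
        intro t ht
        rw [Set.mem_singleton_iff] at ht
        subst ht
        exact hz)
    exact hle (Polynomial.aeval_mem_adjoin_singleton R z)
  let ψA : Polynomial R →+* A :=
    (Polynomial.aeval (R := R) z).toRingHom.codRestrict A.toSubring hmem
  have h1 : IsIntegral A b := by
    refine ⟨p.map ψA, hp.map ψA, ?_⟩
    rw [Polynomial.eval₂_map]
    exact hpb
  exact isIntegral_trans (R := ↥(Algebra.adjoin R ({y} : Set L))) (A := A) b h1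

/-- An element of `R[y]`-root form is integral over `R[y]`. -/
theorem isIntegral_adjoin_of_eval₂_self {y b : L}
    (p : Polynomial (Polynomial R)) (hp : p.Monic)
    (hpb : p.eval₂ (Polynomial.aeval (R := R) y).toRingHom b = 0) :
    IsIntegral (Algebra.adjoin R ({y} : Set L)) b :=
  isIntegral_adjoin_of_eval₂
    (isIntegral_algebraMap (R := ↥(Algebra.adjoin R ({y} : Set L)))
      (x := (⟨y, Algebra.subset_adjoin (Set.mem_singleton y)⟩ :
        ↥(Algebra.adjoin R ({y} : Set L))))) p hp hpb

/-- A monic polynomial relation in elementwise form. -/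
theorem monic_eval₂_eq_sum (ψ : Polynomial R →+* L) (Q : Polynomial (Polynomial R))
    (hQ : Q.Monic) (g : L) :
    Q.eval₂ ψ g = g ^ Q.natDegree + ∑ i : Fin Q.natDegree, ψ (Q.coeff i) * g ^ (i : ℕ) := by
  conv_lhs => rw [hQ.as_sum]
  simp only [Polynomial.eval₂_add, Polynomial.eval₂_pow, Polynomial.eval₂_X,
    Polynomial.eval₂_finsetSum, Polynomial.eval₂_mul, Polynomial.eval₂_C]
  rw [Finset.sum_range]

/-- **S2, abstract core.** -/
theorem isIntegrallyClosed_quotient_of_residue
    (VM : ValuationSubring K) (V : ValuationSubring L) (φ : K →ₐ[R] L)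
    (yM : K) (y : L) (e : ℕ)
    (B : Subalgebra R L)
    (hB : ∀ f : L, f ∈ B ↔ IsIntegral (Algebra.adjoin R ({y} : Set L)) f)
    (p : Ideal B) (hp : ∀ b : B, b ∈ p ↔ V.valuation (b : L) < 1)
    (hRVM : ∀ r : R, algebraMap R K r ∈ VM) (hyM : yM ∈ VM)
    (hRV : ∀ r : R, algebraMap R L r ∈ V) (hyV : y ∈ V)
    (hφV : ∀ g ∈ VM, φ g ∈ V)
    (hφm : ∀ g : K, VM.valuation g < 1 → V.valuation (φ g) < 1)
    (hkron : V.valuation (y - φ yM ^ e) < 1)
    (hres : ∀ f ∈ V, ∃ g ∈ VM, V.valuation (f - φ g) < 1)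
    (hnormM : ∀ g ∈ VM, ∀ Q : Polynomial (Polynomial R), Q.Monic →
      VM.valuation (Q.eval₂ (Polynomial.aeval (R := R) yM).toRingHom g) < 1 →
      ∃ b : K, φ b ∈ B ∧ VM.valuation (g - b) < 1) :
    IsIntegrallyClosed (B ⧸ p) := by
  classical
  have hBV : ∀ b ∈ B, b ∈ V := fun b hb =>
    mem_valuationSubring_of_isIntegral_adjoin V hRV hyV ((hB b).1 hb)
  -- the residue map of `V`
  set ρ : V →+* IsLocalRing.ResidueField V := IsLocalRing.residue V with hρdef
  have hρ : ∀ v : V, ρ v = 0 ↔ V.valuation (v : L) < 1 := fun v => by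
    rw [hρdef, IsLocalRing.residue_eq_zero_iff, ValuationSubring.valuation_lt_one_iff]
  have hρeq : ∀ u v : V, V.valuation ((u : L) - v) < 1 → ρ u = ρ v := by
    intro u v h
    have : ρ (u - v) = 0 := (hρ _).2 h
    rwa [map_sub, sub_eq_zero] at this
  -- `B → V → κ`
  let ιB : B →+* V :=
    { toFun := fun b => ⟨b.1, hBV b.1 b.2⟩
      map_one' := rfl
      map_mul' := fun _ _ => rfl
      map_zero' := rfl
      map_add' := fun _ _ => rfl }
  set ψ : B →+* IsLocalRing.ResidueField V := ρ.comp ιB with hψdef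
  have hψ : ∀ b : B, ψ b = 0 ↔ b ∈ p := fun b => by
    rw [hp]
    exact hρ _
  have hker : RingHom.ker ψ = p := by
    ext b
    rw [RingHom.mem_ker, hψ]
  have hprime : p.IsPrime := hker ▸ RingHom.ker_isPrime ψ
  let ι : B ⧸ p →+* IsLocalRing.ResidueField V :=
    Ideal.Quotient.lift p ψ (fun b hb => (hψ b).2 hb)
  have hι : Function.Injective ι := by
    rw [injective_iff_map_eq_zero]
    intro z hz
    obtain ⟨b, rfl⟩ := Ideal.Quotient.mk_surjective z
    rw [Ideal.Quotient.lift_mk] at hz
    exact Ideal.Quotient.eq_zero_iff_mem.2 ((hψ b).1 hz)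
  let ι' : FractionRing (B ⧸ p) →+* IsLocalRing.ResidueField V := IsFractionRing.lift hι
  have hι' : ∀ z : B ⧸ p, ι' (algebraMap (B ⧸ p) (FractionRing (B ⧸ p)) z) = ι z :=
    fun z => IsFractionRing.lift_algebraMap hι z
  refine (isIntegrallyClosed_iff (FractionRing (B ⧸ p))).2 fun {x} hx => ?_
  -- `ξ = ι' x` is integral over `ψ(B)`
  set ξ := ι' x with hξ
  obtain ⟨P, hP, hPx⟩ := hx
  have hPξ : P.eval₂ ι ξ = 0 := by
    have h1 := congrArg ι' hPx
    rw [Polynomial.hom_eval₂, map_zero] at h1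
    have h2 : ι'.comp (algebraMap (B ⧸ p) (FractionRing (B ⧸ p))) = ι :=
      RingHom.ext hι'
    rwa [h2] at h1
  obtain ⟨P', hP'map, -, hP'monic⟩ :=
    Polynomial.lifts_and_natDegree_eq_and_monic (f := Ideal.Quotient.mk p)
      ((Polynomial.mem_lifts _).2
        (Polynomial.map_surjective _ Ideal.Quotient.mk_surjective P)) hP
  have hP'ξ : P'.eval₂ ψ ξ = 0 := by
    rw [← hP'map, Polynomial.eval₂_map] at hPξ
    exact hPξ
  -- the structure map `R[X] → V → κ`
  let cR : R →+* V := (algebraMap R L).codRestrict V.toSubring hRV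
  let evV : Polynomial R →+* V := Polynomial.eval₂RingHom cR ⟨y, hyV⟩
  set ε : Polynomial R →+* IsLocalRing.ResidueField V := ρ.comp evV with hεdef
  have hsub : V.subtype.comp evV = (Polynomial.aeval (R := R) y).toRingHom := by
    apply Polynomial.ringHom_ext
    · intro r
      simp [evV, cR]
    · simp [evV]
  -- every `ψ b` is integral over `ε`
  have hint : ∀ b : B, ε.IsIntegralElem (ψ b) := by
    intro b
    obtain ⟨q, hq, hqb⟩ := exists_monic_eval₂_aeval_of_isIntegral_adjoin ((hB b.1).1 b.2)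
    refine ⟨q, hq, ?_⟩
    have h1 : q.eval₂ evV (ιB b) = 0 := by
      apply V.subtype_injective
      rw [Polynomial.hom_eval₂, hsub, map_zero]
      exact hqb
    have h2 := congrArg ρ h1
    rw [Polynomial.hom_eval₂, map_zero] at h2
    exact h2
  -- transitivity
  have hξint : ε.IsIntegralElem ξ := by
    letI : Algebra (Polynomial R) (IsLocalRing.ResidueField V) := ε.toAlgebra
    let A := integralClosure (Polynomial R) (IsLocalRing.ResidueField V)
    let ψA : B →+* A := ψ.codRestrict A.toSubring (fun b => hint b)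
    have h1 : IsIntegral A ξ := by
      refine ⟨P'.map ψA, hP'monic.map ψA, ?_⟩
      rw [Polynomial.eval₂_map]
      exact hP'ξ
    exact isIntegral_trans (R := Polynomial R) (A := A) ξ h1
  obtain ⟨Pε, hPε, hPεξ⟩ := hξint
  -- lift `ξ`
  obtain ⟨f, hf⟩ := IsLocalRing.residue_surjective (R := V) ξ
  obtain ⟨g, hg, hfg⟩ := hres f.1 f.2
  have hξg : ρ ⟨φ g, hφV g hg⟩ = ξ := by
    rw [← hf]
    refine (hρeq f ⟨φ g, hφV g hg⟩ hfg).symm
  -- level `K`
  let cRM : R →+* VM := (algebraMap R K).codRestrict VM.toSubring hRVM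
  let evVM : Polynomial R →+* VM := Polynomial.eval₂RingHom cRM ⟨yM, hyM⟩
  have hsubM : VM.subtype.comp evVM = (Polynomial.aeval (R := R) yM).toRingHom := by
    apply Polynomial.ringHom_ext
    · intro r
      simp [evVM, cRM]
    · simp [evVM]
  let φV : VM →+* V := (φ.toRingHom.comp VM.subtype).codRestrict V.toSubring
    (fun g => hφV g.1 g.2)
  set Q : Polynomial (Polynomial R) := Pε.map (Polynomial.expand R e : _ →ₐ[R] _).toRingHom
    with hQ
  have hQmonic : Q.Monic := hPε.map _
  set zM : VM := Q.eval₂ evVM ⟨g, hg⟩ with hzM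
  have hcomp : (ρ.comp (φV.comp evVM)).comp (Polynomial.expand R e : _ →ₐ[R] _).toRingHom = ε := by
    apply Polynomial.ringHom_ext
    · intro r
      simp only [RingHom.coe_comp, Function.comp_apply, AlgHom.toRingHom_eq_coe,
        RingHom.coe_coe, Polynomial.expand_C, hεdef]
      congr 1
      apply Subtype.ext
      simp [φV, evVM, evV, cR, cRM]
    · simp only [RingHom.coe_comp, Function.comp_apply, AlgHom.toRingHom_eq_coe,
        RingHom.coe_coe, Polynomial.expand_X, hεdef, map_pow]
      have h1 : evVM Polynomial.X = ⟨yM, hyM⟩ := by simp [evVM]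
      have h2 : evV Polynomial.X = ⟨y, hyV⟩ := by simp [evV]
      rw [h1, h2, ← map_pow]
      refine (hρeq _ _ ?_).symm
      have h3 : ((φV ⟨yM, hyM⟩ ^ e : V) : L) = φ yM ^ e := by
        simp [φV]
      rw [h3]
      exact hkron
  have hzero : ρ (φV zM) = 0 := by
    rw [hzM, Polynomial.hom_eval₂, Polynomial.hom_eval₂, hQ, Polynomial.eval₂_map, hcomp]
    have h1 : ρ (φV ⟨g, hg⟩) = ξ := hξg
    rw [h1]
    exact hPεξ
  have hzval : V.valuation (φ (zM : K)) < 1 := (hρ (φV zM)).1 hzero
  have hzM1 : VM.valuation (zM : K) < 1 := by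
    by_contra hcon
    have hle : VM.valuation (zM : K) ≤ 1 := (VM.valuation_le_one_iff _).2 zM.2
    have heq : VM.valuation (zM : K) = 1 := le_antisymm hle (not_lt.1 hcon)
    have hz0 : (zM : K) ≠ 0 := by
      intro h0
      rw [h0, map_zero] at heq
      exact zero_ne_one heq
    have hinv : (zM : K)⁻¹ ∈ VM := by
      rw [← VM.valuation_le_one_iff, map_inv₀, heq, inv_one]
    have h1 : V.valuation (φ (zM : K)⁻¹) ≤ 1 := (V.valuation_le_one_iff _).2 (hφV _ hinv)
    have h2 : V.valuation (φ (zM : K)) * V.valuation (φ (zM : K)⁻¹) = 1 := by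
      rw [← map_mul, ← map_mul, mul_inv_cancel₀ hz0, map_one, map_one]
    have h3 : V.valuation (φ (zM : K)) * V.valuation (φ (zM : K)⁻¹) < 1 := by
      calc V.valuation (φ (zM : K)) * V.valuation (φ (zM : K)⁻¹)
          ≤ V.valuation (φ (zM : K)) * 1 := mul_le_mul' le_rfl h1
        _ = V.valuation (φ (zM : K)) := mul_one _
        _ < 1 := hzval
    rw [h2] at h3
    exact lt_irrefl _ h3
  have hzMK : (zM : K) = Q.eval₂ (Polynomial.aeval (R := R) yM).toRingHom g := by
    have h1 : VM.subtype zM = Q.eval₂ (VM.subtype.comp evVM) (VM.subtype ⟨g, hg⟩) := by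
      rw [hzM, Polynomial.hom_eval₂]
    rw [hsubM] at h1
    exact h1
  rw [hzMK] at hzM1
  obtain ⟨b₀, hb₀B, hb₀⟩ := hnormM g hg Q hQmonic hzM1
  have hb₁ : V.valuation (φ g - φ b₀) < 1 := by
    rw [← map_sub]
    exact hφm _ hb₀
  have hb₂ : V.valuation ((f : L) - φ b₀) < 1 := by
    have : (f : L) - φ b₀ = ((f : L) - φ g) + (φ g - φ b₀) := by ring
    rw [this]
    exact Valuation.map_add_lt _ hfg hb₁
  refine ⟨Ideal.Quotient.mk p ⟨φ b₀, hb₀B⟩, ?_⟩
  apply ι'.injective
  rw [hι', ← hξ, ← hf]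
  show ψ ⟨φ b₀, hb₀B⟩ = _
  exact (hρeq f (ιB ⟨φ b₀, hb₀B⟩) hb₂).symm

end Abs

end Fermat.Agent.A2.Mod.H994
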