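import Fermat.Agent.A2.Mod.Asm
import Fermat.Agent.A2.Mod.H553.VzeroNe
import Fermat.Agent.A2.Mod.H553.Fricke
import Fermat.Agent.A2.Mod.H900.L7
import Fermat.Agent.A2.Mod.H873.L13
import Fermat.Agent.A2.Mod.H994.S2Abs

/-!
# WALL A2 / MODASM — S2 (components normal), concrete part (helper994)

`s2_of_resInf : ResInfStatement P E M q w → S2Statement P E M q w`.

Inputs from main: L2 (`H553.vinfBasic`), L5 (`H553.frickeCompat`), L7 (`H900.frickeStable`),
L13 (`H873.chartCompat`), Frobenius congruence (`H528.exists_frobCong`), and the abstract core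
`isIntegrallyClosed_quotient_of_residue` (`S2Abs.lean`).  The only open input is L11 (`ResInf`).
-/

set_option autoImplicit false
set_option linter.unusedSectionVars false
set_option linter.style.haveILetI false
set_option synthInstance.maxHeartbeats 400000
set_option maxHeartbeats 1600000

noncomputable section

namespace Fermat.Agent.A2.Mod.H994

open ModularCurve HahnSeries Polynomial
open Fermat.Agent.A2 Fermat.Agent.A2.Mod

section Prelim

variable {P : ValuationSubring Qb} {E : IntermediateField ℚ Qb}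

/-- `InW` in terms of the valuation. -/
theorem inW_iff_val {N : ℕ} {V : ValuationSubring (FE E N)} {w : RE P E}
    (hU : H48.IsUnif V (cE P E N w)) {f : FE E N} :
    InW P E N V w f ↔ V.valuation f < 1 :=
  hU.mul_inv_mem_iff

/-- Transport of a uniformiser along an automorphism fixing it. -/
theorem isUnif_comap {F : Type*} [Field F] {V : ValuationSubring F} {ϖ : F}
    (hU : H48.IsUnif V ϖ) (W : F →+* F) (hW : W ϖ = ϖ) : H48.IsUnif (V.comap W) ϖ where
  mem := by
    rw [ValuationSubring.mem_comap, hW]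
    exact hU.mem
  inv_not_mem := by
    rw [ValuationSubring.mem_comap, map_inv₀, hW]
    exact hU.inv_not_mem
  gen := by
    intro f hf hfinv
    rw [ValuationSubring.mem_comap] at hf hfinv ⊢
    rw [map_mul, map_inv₀, hW]
    rw [map_inv₀] at hfinv
    exact hU.gen _ hf hfinv

theorem val_comap_lt_one_iff {F : Type*} [Field F] {V : ValuationSubring F} {ϖ : F}
    (hU : H48.IsUnif V ϖ) (W : F →+* F) (hW : W ϖ = ϖ) {f : F} :
    (V.comap W).valuation f < 1 ↔ V.valuation (W f) < 1 := by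
  rw [← (isUnif_comap hU W hW).mul_inv_mem_iff, ← hU.mul_inv_mem_iff,
    ValuationSubring.mem_comap, map_mul, map_inv₀, hW]

/-- `α` maps `V∞` of level `M` into `V∞` of level `M q`. -/
theorem alpha_mem {M q : ℕ} [NeZero M] [NeZero q] {VM : ValuationSubring (FE E M)}
    {V : ValuationSubring (FE E (M * q))} (hVM : IsVinf P E M VM) (hV : IsVinf P E (M * q) V)
    {g : FE E M} (hg : g ∈ VM) : αE E M q g ∈ V := by
  rw [hV, coe_heckeAlphaBar]
  obtain ⟨U₁, U₂, hred, hmem, heq⟩ := (hVM g).1 hg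
  refine ⟨U₁, U₂, hred, ?_, heq⟩
  have h1 := (αE E M q ⟨_, hmem⟩).2
  rw [coe_heckeAlphaBar] at h1
  exact h1

end Prelim

section Frob

variable {P : ValuationSubring Qb} {E : IntermediateField ℚ Qb}

/-- the residue characteristic is a non-unit of `V∞` -/
theorem val_natCast_lt_one {N q : ℕ} [NeZero q] [IsNoetherianRing ↥(RE P E)]
    (hP : P.LiesOverPrime q) {V : ValuationSubring (FE E N)} (hV : IsVinf P E N V) :
    V.valuation (algebraMap ↥E ↥(FE E N) (q : ↥E)) < 1 := by
  by_contra hcon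
  have hq0 : (q : ↥E) ≠ 0 := by exact_mod_cast NeZero.ne q
  have hqF : algebraMap ↥E ↥(FE E N) (q : ↥E) ≠ 0 :=
    (map_ne_zero_iff _ (algebraMap ↥E ↥(FE E N)).injective).mpr hq0
  have h1 : 1 ≤ V.valuation (algebraMap ↥E ↥(FE E N) (q : ↥E)) := not_lt.1 hcon
  have h2 : (algebraMap ↥E ↥(FE E N) (q : ↥E))⁻¹ ∈ V := by
    rw [← V.valuation_le_one_iff, map_inv₀]
    exact inv_le_one_of_one_le₀ h1
  have h3 : (algebraMap ↥E ↥(FE E N) (q : ↥E))⁻¹ =
      algebraMap ↥E ↥(FE E N) ((q : ↥E)⁻¹) := (map_inv₀ _ _).symm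
  rw [h3] at h2
  have h4 : ((q : ↥E)⁻¹) ∈ RE P E := (H553.algebraMap_mem_iff P E hV _).mp h2
  have h5 : ((q : Qb)⁻¹) ∈ P := by
    have : (((q : ↥E)⁻¹ : ↥E) : Qb) ∈ P := h4
    simpa using this
  have h6 : (q : Qb) ∈ P.nonunits := hP
  rw [ValuationSubring.mem_nonunits_iff] at h6
  have h7 : P.valuation ((q : Qb)⁻¹) ≤ 1 := (P.valuation_le_one_iff _).mpr h5
  rw [map_inv₀] at h7
  have hq0' : P.valuation (q : Qb) ≠ 0 := by
    rw [Valuation.ne_zero_iff]
    exact_mod_cast NeZero.ne q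
  have h8 : 1 ≤ P.valuation (q : Qb) := (inv_le_one₀ (zero_lt_iff.mpr hq0')).mp h7
  exact absurd h6 (not_lt.mpr h8)

/-- **Frobenius congruence in `V∞`**: a function whose expansion is `x(t^q) - x(t)^q`,
`x` an integral series, is a non-unit of `V∞`. -/
theorem val_frob_lt_one {N q : ℕ} [NeZero q] [Fact q.Prime] [IsNoetherianRing ↥(RE P E)]
    (hP : P.LiesOverPrime q) {V : ValuationSubring (FE E N)} (hV : IsVinf P E N V)
    (x : LaurentSeries ℤ) {f : FE E N}
    (hf : (f : LaurentSeries ↥E) = coeffEmb (↥E) (H708.castQ (qExpand ℤ q x - x ^ q))) :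
    V.valuation f < 1 := by
  obtain ⟨g, hg⟩ := H528.exists_frobCong q x
  have hq0 : (q : ↥E) ≠ 0 := by exact_mod_cast NeZero.ne q
  have hqF : algebraMap ↥E ↥(FE E N) (q : ↥E) ≠ 0 :=
    (map_ne_zero_iff _ (algebraMap ↥E ↥(FE E N)).injective).mpr hq0
  have hqS : algebraMap (↥E) (LaurentSeries ↥E) (q : ↥E) ≠ 0 :=
    (map_ne_zero_iff _ (algebraMap (↥E) (LaurentSeries ↥E)).injective).mpr hq0
  have hf' : (f : LaurentSeries ↥E) =
      algebraMap (↥E) (LaurentSeries ↥E) (q : ↥E) * coeffEmb (↥E) (H708.castQ g) := by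
    rw [hf, hg, map_mul, map_mul]
    congr 1
    ext n
    simp [coeffEmb, H708.castQ]
  set g' : ↥(FE E N) := (algebraMap ↥E ↥(FE E N) (q : ↥E))⁻¹ * f with hg'
  have hcoe : ((g' : ↥(FE E N)) : LaurentSeries ↥E) = coeffEmb (↥E) (H708.castQ g) := by
    have h1 : ((g' : ↥(FE E N)) : LaurentSeries ↥E) =
        (algebraMap (↥E) (LaurentSeries ↥E) (q : ↥E))⁻¹ * (f : LaurentSeries ↥E) := by
      rw [hg', IntermediateField.coe_mul, IntermediateField.coe_inv]
      rfl
    rw [h1, hf', ← mul_assoc, inv_mul_cancel₀ hqS, one_mul]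
  have hg'V : g' ∈ V := H553.mem_of_int hV hcoe
  have hfeq : f = algebraMap ↥E ↥(FE E N) (q : ↥E) * g' := by
    rw [hg', ← mul_assoc, mul_inv_cancel₀ hqF, one_mul]
  rw [hfeq, map_mul]
  calc V.valuation (algebraMap ↥E ↥(FE E N) (q : ↥E)) * V.valuation g'
      ≤ V.valuation (algebraMap ↥E ↥(FE E N) (q : ↥E)) * 1 :=
        mul_le_mul' le_rfl ((V.valuation_le_one_iff _).2 hg'V)
    _ = V.valuation (algebraMap ↥E ↥(FE E N) (q : ↥E)) := mul_one _
    _ < 1 := val_natCast_lt_one hP hV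

end Frob

section Kron

variable {P : ValuationSubring Qb} {E : IntermediateField ℚ Qb} {M q : ℕ} [NeZero M] [NeZero q]
  [NeZero (M * q)]

/-- `j_q ≡ j^q` modulo `𝔪_{V∞}` -/
theorem val_frobInf [Fact q.Prime] [IsNoetherianRing ↥(RE P E)] (hP : P.LiesOverPrime q)
    {V : ValuationSubring (FE E (M * q))} (hV : IsVinf P E (M * q) V) :
    V.valuation (jE E (M * q) q (dvd_mul_left q M) - jE E (M * q) 1 (one_dvd _) ^ q) < 1 := by
  refine val_frob_lt_one hP hV (H708.jInt 1) ?_
  rw [← H553.jInt_eq_qExpand q]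
  exact H553.coe_frobE E M q

/-- `j_{Mq} ≡ j_M^q` modulo `𝔪_{V∞}` -/
theorem val_frobZero [Fact q.Prime] [IsNoetherianRing ↥(RE P E)] (hP : P.LiesOverPrime q)
    {V : ValuationSubring (FE E (M * q))} (hV : IsVinf P E (M * q) V) :
    V.valuation (jE E (M * q) (M * q) dvd_rfl - jE E (M * q) M (dvd_mul_right M q) ^ q) < 1 := by
  refine val_frob_lt_one hP hV (H708.jInt M) ?_
  have h1 : qExpand ℤ q (H708.jInt M) = H708.jInt (M * q) := by
    rw [H553.jInt_eq_qExpand M, qExpand_qExpand, H553.jInt_eq_qExpand (M * q)]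
    exact qExpand_congr (mul_comm q M) _
  rw [h1, map_sub, map_sub, map_pow, map_pow, ← H553.coe_jE (E := E) (M * q) (M * q) dvd_rfl,
    ← H553.coe_jE (E := E) (M * q) M (dvd_mul_right M q)]
  rfl

theorem βE_jE_one :
    βE E M q (jE E M 1 (one_dvd _)) = jE E (M * q) q (dvd_mul_left q M) := by
  apply Subtype.ext
  show qExpand (↥E) q (coeffEmb (↥E) (qExpand ℚ 1 jq)) = coeffEmb (↥E) (qExpand ℚ q jq)
  rw [qExpand_one_apply, coeffEmb, ← coeffMap_qExpand]

theorem αE_jE_one :
    αE E M q (jE E M 1 (one_dvd _)) = jE E (M * q) 1 (one_dvd _) :=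
  Subtype.ext rfl

/-- units `a ≡ b` have `a⁻¹ ≡ b⁻¹` -/
theorem val_inv_sub_inv_lt_one {F : Type*} [Field F] (V : ValuationSubring F) {a b : F}
    (ha : a⁻¹ ∈ V) (hb : b⁻¹ ∈ V) (ha0 : a ≠ 0) (hb0 : b ≠ 0)
    (h : V.valuation (a - b) < 1) : V.valuation (a⁻¹ - b⁻¹) < 1 := by
  have h1 : a⁻¹ - b⁻¹ = -((a - b) * (a⁻¹ * b⁻¹)) := by
    field_simp
    ring
  rw [h1, Valuation.map_neg, map_mul]
  calc V.valuation (a - b) * V.valuation (a⁻¹ * b⁻¹)
      ≤ V.valuation (a - b) * 1 :=
        mul_le_mul' le_rfl ((V.valuation_le_one_iff _).2 (V.mul_mem _ _ ha hb))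
    _ = V.valuation (a - b) := mul_one _
    _ < 1 := h

theorem val_mul_lt_one {F : Type*} [Field F] (V : ValuationSubring F) {a b : F}
    (ha : a ∈ V) (h : V.valuation b < 1) : V.valuation (a * b) < 1 := by
  rw [map_mul]
  calc V.valuation a * V.valuation b ≤ 1 * V.valuation b :=
        mul_le_mul' ((V.valuation_le_one_iff _).2 ha) le_rfl
    _ = V.valuation b := one_mul _
    _ < 1 := h

end Kron

section Core

variable {P : ValuationSubring Qb} {E : IntermediateField ℚ Qb} {M q : ℕ} [NeZero M] [NeZero q]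
  {w : RE P E}

/-- chart membership in `IsIntegral` form -/
theorem isIntegral_of_mem_chart {N : ℕ} {y b : FE E N} (hb : b ∈ chart P E N y) :
    IsIntegral (Algebra.adjoin (RE P E) ({y} : Set (FE E N))) b := by
  obtain ⟨p, hp, hpb⟩ := hb
  refine isIntegral_adjoin_of_eval₂_self p hp ?_
  have h : (Polynomial.aeval (R := RE P E) y).toRingHom =
      Polynomial.eval₂RingHom ((algebraMap E (FE E N)).comp (RE P E).subtype) y := by
    apply Polynomial.ringHom_ext
    · intro r
      simp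
      rfl
    · simp
  rw [h]
  exact hpb

theorem mem_chartAlg_of_mem_chart {N : ℕ} {y b : FE E N} (hb : b ∈ chart P E N y) :
    b ∈ chartAlg P E N y :=
  isIntegral_of_mem_chart hb

/-- the image of `R_E[y]` lies in the chart -/
theorem aeval_mem_chart {N : ℕ} (y : FE E N) (a : Polynomial (RE P E)) :
    Polynomial.aeval (R := RE P E) y a ∈ chart P E N y := by
  refine ⟨Polynomial.X - Polynomial.C a, Polynomial.monic_X_sub_C a, ?_⟩
  rw [Polynomial.eval₂_sub, Polynomial.eval₂_X, Polynomial.eval₂_C, sub_eq_zero]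
  rfl

/-- **S2 for one component**, from the data of that component. -/
theorem normal_of_data
    {VM : ValuationSubring (FE E M)} {V' : ValuationSubring (FE E (M * q))}
    (hUM : H48.IsUnif VM (cE P E M w)) (hU' : H48.IsUnif V' (cE P E (M * q) w))
    (hRVM : ∀ e : E, e ∈ RE P E → algebraMap E (FE E M) e ∈ VM)
    (hRV' : ∀ e : E, e ∈ RE P E → algebraMap E (FE E (M * q)) e ∈ V')
    (φ : FE E M →ₐ[E] FE E (M * q))
    (hφV : ∀ g ∈ VM, φ g ∈ V')
    (hres : ∀ f ∈ V', ∃ g ∈ VM, V'.valuation (f - φ g) < 1)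
    (yM : FE E M) (y : FE E (M * q))
    (hyM : yM ∈ VM) (hyV : y ∈ V')
    (hkron : V'.valuation (y - φ yM ^ (q + 1)) < 1)
    (hφy : φ yM ∈ chartAlg P E (M * q) y)
    (hgood : GoodRedAt P E M w VM yM)
    (p : Ideal (chartAlg P E (M * q) y))
    (hp : IsCut P E (M * q) w V' (chartAlg P E (M * q) y) p) :
    IsIntegrallyClosed (chartAlg P E (M * q) y ⧸ p) := by
  refine isIntegrallyClosed_quotient_of_residue (R := RE P E) VM V'
    (φ.restrictScalars (RE P E)) yM y (q + 1) (chartAlg P E (M * q) y) (fun f => Iff.rfl) p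
    (fun b => (hp b).trans (inW_iff_val hU')) (fun r => hRVM r.1 r.2) hyM
    (fun r => hRV' r.1 r.2) hyV hφV ?_ hkron hres ?_
  · -- `φ` maps non-units to non-units
    intro g hg
    have h1 : g * (cE P E M w)⁻¹ ∈ VM := hUM.mul_inv_mem_iff.2 hg
    have h2 := hφV _ h1
    rw [map_mul, map_inv₀] at h2
    have h3 : φ (cE P E M w) = cE P E (M * q) w := φ.commutes _
    rw [h3] at h2
    exact hU'.mul_inv_mem_iff.1 h2
  · -- level-`M` normality
    intro g hg Q hQ hz
    have hsum := monic_eval₂_eq_sum (Polynomial.aeval (R := RE P E) yM).toRingHom Q hQ g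
    rw [hsum] at hz
    obtain ⟨b, hb, hbW⟩ := hgood.normal g hg
      ⟨Q.natDegree, fun i => Polynomial.aeval (R := RE P E) yM (Q.coeff i),
        fun i => aeval_mem_chart yM _, (inW_iff_val hUM).2 hz⟩
    refine ⟨b, ?_, (inW_iff_val hUM).1 hbW⟩
    obtain ⟨p', hp', hpb⟩ := hb
    refine isIntegral_adjoin_of_eval₂ (R := RE P E) (y := y) (z := φ yM) hφy p' hp' ?_
    have h1 : (φ : FE E M →+* FE E (M * q))
        (Polynomial.eval₂
          (Polynomial.eval₂RingHom ((algebraMap E (FE E M)).comp (RE P E).subtype) yM) b p') = 0 := by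
      rw [hpb, map_zero]
    rw [Polynomial.hom_eval₂] at h1
    have h2 : (φ : FE E M →+* FE E (M * q)).comp
        (Polynomial.eval₂RingHom ((algebraMap E (FE E M)).comp (RE P E).subtype) yM) =
        (Polynomial.aeval (R := RE P E) (φ yM)).toRingHom := by
      apply Polynomial.ringHom_ext
      · intro r
        simp
        rfl
      · simp
    rw [← h2]
    exact h1

end Core

section Final

variable (P : ValuationSubring Qb) (E : IntermediateField ℚ Qb) (M q : ℕ) [NeZero M] [NeZero q]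
  (w : RE P E)

/-- **MODASM S2 (components normal)** from L11 (`ResInf`); all other inputs are on main. -/
theorem s2_of_resInf (hL11 : ResInfStatement P E M q w) : S2Statement P E M q w := by
  intro hS VM V W hVM hV hW yM y hy hgood p₁ p₂ hp₁ hp₂
  haveI : NeZero (M * q) := ⟨mul_ne_zero (NeZero.ne M) (NeZero.ne q)⟩
  haveI : Fact q.Prime := ⟨hS.q_prime⟩
  haveI := hS.dvr
  have hN0 : M * q ≠ 0 := NeZero.ne _
  obtain ⟨hUM, hEM, hjM⟩ := H553.vinfBasic P E w M hS.M_ne_zero hS.dvr hS.unif VM hVM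
  obtain ⟨hU, hEV, hjV⟩ := H553.vinfBasic P E w (M * q) hN0 hS.dvr hS.unif V hV
  obtain ⟨WM, hWM⟩ := H553.frickeExists E M hS.M_ne_zero
  have hL5 := H553.frickeCompat E M q WM W hWM hW
  have hL7 := H900.frickeStable P E M q w hS VM WM hVM hWM
  obtain ⟨hc1, hc2, hc3, hc4⟩ := H873.chartCompat P E M q hS.q_prime
  have hWc : (W : FE E (M * q) →+* FE E (M * q)) (cE P E (M * q) w) = cE P E (M * q) w :=
    W.commutes _
  have hU₀ : H48.IsUnif (V.comap (W : FE E (M * q) →+* FE E (M * q))) (cE P E (M * q) w) :=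
    isUnif_comap hU _ hWc
  -- generators
  set j1 : FE E (M * q) := jE E (M * q) 1 (one_dvd _) with hj1
  set jq : FE E (M * q) := jE E (M * q) q (dvd_mul_left q M) with hjq
  set jM : FE E (M * q) := jE E (M * q) M (dvd_mul_right M q) with hjMdef
  set jN : FE E (M * q) := jE E (M * q) (M * q) dvd_rfl with hjN
  have hx : xE E M q = j1 * jq := rfl
  have hWj1 : W j1 = jN := hW.1 1 (M * q) (one_dvd _) dvd_rfl (one_mul _)
  have hWjq : W jq = jM := hW.1 q M (dvd_mul_left q M) (dvd_mul_right M q) (mul_comm q M)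
  have hj1ne : j1 ≠ 0 := H873.jE_ne_zero E (M * q) 1 (one_dvd _)
  have hjqne : jq ≠ 0 := H873.jE_ne_zero E (M * q) q (dvd_mul_left q M)
  have hjMne : jM ≠ 0 := H873.jE_ne_zero E (M * q) M (dvd_mul_right M q)
  have hjNne : jN ≠ 0 := H873.jE_ne_zero E (M * q) (M * q) dvd_rfl
  have hαj : αE E M q (jE E M 1 (one_dvd _)) = j1 := αE_jE_one
  have hβj : βE E M q (jE E M 1 (one_dvd _)) = jq := βE_jE_one
  -- Kronecker congruences for the generators
  have hk1 : V.valuation (j1 * jq - j1 ^ (q + 1)) < 1 := by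
    have : j1 * jq - j1 ^ (q + 1) = j1 * (jq - j1 ^ q) := by ring
    rw [this]
    exact val_mul_lt_one V (hjV 1 (one_dvd _)).1 (val_frobInf hS.lies_over hV)
  have hk2 : V.valuation (jN * jM - jM ^ (q + 1)) < 1 := by
    have : jN * jM - jM ^ (q + 1) = jM * (jN - jM ^ q) := by ring
    rw [this]
    exact val_mul_lt_one V (hjV M (dvd_mul_right M q)).1 (val_frobZero hS.lies_over hV)
  -- common data
  have hRVM : ∀ e : E, e ∈ RE P E → algebraMap E (FE E M) e ∈ VM := fun e he => (hEM e).2 he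
  have hRV : ∀ e : E, e ∈ RE P E → algebraMap E (FE E (M * q)) e ∈ V := fun e he => (hEV e).2 he
  have hRV₀ : ∀ e : E, e ∈ RE P E → algebraMap E (FE E (M * q)) e ∈
      V.comap (W : FE E (M * q) →+* FE E (M * q)) := by
    intro e he
    rw [ValuationSubring.mem_comap]
    have : (W : FE E (M * q) →+* FE E (M * q)) (algebraMap E (FE E (M * q)) e) =
        algebraMap E (FE E (M * q)) e := W.commutes e
    rw [this]
    exact hRV e he
  have hαV : ∀ g ∈ VM, αE E M q g ∈ V := fun g hg => alpha_mem hVM hV hg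
  have hβV : ∀ g ∈ VM, βE E M q g ∈ V.comap (W : FE E (M * q) →+* FE E (M * q)) := by
    intro g hg
    rw [ValuationSubring.mem_comap]
    have : (W : FE E (M * q) →+* FE E (M * q)) (βE E M q g) = αE E M q (WM g) := (hL5 g).2
    rw [this]
    exact hαV _ (hL7 g hg)
  have hresα : ∀ f ∈ V, ∃ g ∈ VM, V.valuation (f - αE E M q g) < 1 := by
    intro f hf
    obtain ⟨g, hg, h⟩ := hL11 hS VM V hVM hV f hf
    exact ⟨g, hg, (inW_iff_val hU).1 h⟩
  have hresβ : ∀ f ∈ V.comap (W : FE E (M * q) →+* FE E (M * q)), ∃ g ∈ VM,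
      (V.comap (W : FE E (M * q) →+* FE E (M * q))).valuation (f - βE E M q g) < 1 := by
    intro f hf
    rw [ValuationSubring.mem_comap] at hf
    obtain ⟨g, hg, h⟩ := hresα _ hf
    refine ⟨WM g, hL7 g hg, ?_⟩
    rw [val_comap_lt_one_iff hU _ hWc, map_sub]
    have h1 : (W : FE E (M * q) →+* FE E (M * q)) (βE E M q (WM g)) = αE E M q g := by
      have := (hL5 (WM g)).2
      rw [hWM.2 g] at this
      exact this
    rw [h1]
    exact h
  rcases hy with ⟨rfl, rfl⟩ | ⟨rfl, rfl⟩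
  · -- the finite chart
    refine ⟨?_, ?_⟩
    · refine normal_of_data hUM hU hRVM hRV (αE E M q) hαV hresα _ _
        (hjM 1 (one_dvd _)).1 ?_ ?_ ?_ hgood p₁ hp₁
      · rw [hx]
        exact V.mul_mem _ _ (hjV 1 (one_dvd _)).1 (hjV q (dvd_mul_left q M)).1
      · rw [hαj, hx]
        exact hk1
      · rw [hαj]
        exact mem_chartAlg_of_mem_chart hc1
    · refine normal_of_data hUM hU₀ hRVM hRV₀ (βE E M q) hβV hresβ _ _
        (hjM 1 (one_dvd _)).1 ?_ ?_ ?_ hgood p₂ hp₂
      · rw [ValuationSubring.mem_comap, hx, map_mul]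
        have e1 : (W : FE E (M * q) →+* FE E (M * q)) j1 = jN := hWj1
        have e2 : (W : FE E (M * q) →+* FE E (M * q)) jq = jM := hWjq
        rw [e1, e2]
        exact V.mul_mem _ _ (hjV (M * q) dvd_rfl).1 (hjV M (dvd_mul_right M q)).1
      · rw [val_comap_lt_one_iff hU _ hWc, hβj, hx, map_sub, map_mul, map_pow]
        have e1 : (W : FE E (M * q) →+* FE E (M * q)) j1 = jN := hWj1
        have e2 : (W : FE E (M * q) →+* FE E (M * q)) jq = jM := hWjq
        rw [e1, e2]
        exact hk2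
      · rw [hβj]
        exact mem_chartAlg_of_mem_chart hc2
  · -- the chart at infinity
    have hxne : xE E M q ≠ 0 := by
      rw [hx]
      exact mul_ne_zero hj1ne hjqne
    refine ⟨?_, ?_⟩
    · refine normal_of_data hUM hU hRVM hRV (αE E M q) hαV hresα _ _
        (hjM 1 (one_dvd _)).2 ?_ ?_ ?_ hgood p₁ hp₁
      · rw [hx, mul_inv]
        exact V.mul_mem _ _ (hjV 1 (one_dvd _)).2 (hjV q (dvd_mul_left q M)).2
      · rw [map_inv₀, hαj, inv_pow, hx]
        refine val_inv_sub_inv_lt_one V ?_ ?_ (mul_ne_zero hj1ne hjqne)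
          (pow_ne_zero _ hj1ne) hk1
        · rw [mul_inv]
          exact V.mul_mem _ _ (hjV 1 (one_dvd _)).2 (hjV q (dvd_mul_left q M)).2
        · rw [← inv_pow]
          exact V.pow_mem (hjV 1 (one_dvd _)).2 _
      · rw [map_inv₀, hαj]
        exact mem_chartAlg_of_mem_chart hc3
    · refine normal_of_data hUM hU₀ hRVM hRV₀ (βE E M q) hβV hresβ _ _
        (hjM 1 (one_dvd _)).2 ?_ ?_ ?_ hgood p₂ hp₂
      · rw [ValuationSubring.mem_comap, hx, map_inv₀, map_mul, mul_inv]
        have e1 : (W : FE E (M * q) →+* FE E (M * q)) j1 = jN := hWj1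
        have e2 : (W : FE E (M * q) →+* FE E (M * q)) jq = jM := hWjq
        rw [e1, e2]
        exact V.mul_mem _ _ (hjV (M * q) dvd_rfl).2 (hjV M (dvd_mul_right M q)).2
      · rw [val_comap_lt_one_iff hU _ hWc, map_inv₀, hβj, inv_pow, hx, map_sub, map_inv₀,
          map_inv₀, map_mul, map_pow]
        have e1 : (W : FE E (M * q) →+* FE E (M * q)) j1 = jN := hWj1
        have e2 : (W : FE E (M * q) →+* FE E (M * q)) jq = jM := hWjq
        rw [e1, e2]
        refine val_inv_sub_inv_lt_one V ?_ ?_ (mul_ne_zero hjNne hjMne)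
          (pow_ne_zero _ hjMne) hk2
        · rw [mul_inv]
          exact V.mul_mem _ _ (hjV (M * q) dvd_rfl).2 (hjV M (dvd_mul_right M q)).2
        · rw [← inv_pow]
          exact V.pow_mem (hjV M (dvd_mul_right M q)).2 _
      · rw [map_inv₀, hβj]
        exact mem_chartAlg_of_mem_chart hc4

end Final

end Fermat.Agent.A2.Mod.H994

end
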